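import Mathlib
import Fermat.Agent.S13.H56.TorsionFinal

/-!
# S52 helper: the `p`-torsion bound in arbitrary characteristic

The landed S13 package (`Fermat.Agent.S13.H56`) bounds the `p`-torsion of a Weierstrass curve by
`p ^ 2` over fields of characteristic zero.  The only place where characteristic zero is used is
the non-vanishing of the ladder polynomial `ladD W k`, whose coefficient in degree `2k² + 2k` is
`-(2k+1)`.  Here we restate the results over an arbitrary field in which the odd prime `p` is
nonzero (this is what the function-field step of the `3–5` switch needs: `5`-torsion over `k(t)`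
with `k` of characteristic `ℓ ≥ 7`).

* `card_torsion_le_of_cast_ne_zero` : the set `{P | p • P = 0}` is finite of cardinality `≤ p ^ 2`;
* `natCard_torsionBy_le_of_cast_ne_zero` : the same for `Submodule.torsionBy ℤ W.Point p`;
* `exists_torsion_point_of_cast_ne_zero` : over an algebraically closed field there is a nonzero
  point killed by `p`;
* `nontrivial_torsionBy_of_cast_ne_zero` : the corresponding `Nontrivial` statement.
-/

set_option autoImplicit false

open Polynomial WeierstrassCurve
open Fermat.Agent.S13.H15 Fermat.Agent.S13.H56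

namespace Fermat.Agent.S52.H55

universe u

variable {K : Type u} [Field K]

/-- The ladder polynomial is nonzero as soon as `2k+1` is nonzero in the field. -/
lemma ladD_ne_zero_of_cast_ne_zero (W : Affine K) (k : ℕ) (hk : ((2 * k + 1 : ℕ) : K) ≠ 0) :
    ladD W k ≠ 0 := by
  intro h
  have := ladD_coeff W k
  rw [h, coeff_zero, eq_comm, neg_eq_zero] at this
  exact hk this

/-- Over an algebraically closed field in which the odd prime `p` is nonzero, a Weierstrass curve
with `Δ ≠ 0` has a nonzero point killed by `p`. -/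
theorem exists_torsion_point_of_cast_ne_zero [DecidableEq K] [IsAlgClosed K] (W : Affine K)
    (hΔ : W.Δ ≠ 0) {p : ℕ} (hp : p.Prime) (hp2 : p ≠ 2) (hpK : (p : K) ≠ 0) :
    ∃ P : W.Point, P ≠ 0 ∧ p • P = 0 := by
  obtain ⟨k, hk, rfl⟩ := exists_eq_two_mul_add_one hp hp2
  have hne : ladD W k ≠ 0 := ladD_ne_zero_of_cast_ne_zero W k hpK
  have hnat : (ladD W k).natDegree = 2 * k ^ 2 + 2 * k := by
    refine le_antisymm (ladD_natDegree_le W k) (le_natDegree_of_ne_zero ?_)
    rw [ladD_coeff, neg_ne_zero]
    exact hpK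
  have hdeg : (ladD W k).degree ≠ 0 := by
    rw [degree_eq_natDegree hne, hnat]
    have : 0 < 2 * k ^ 2 + 2 * k := by positivity
    exact_mod_cast this.ne'
  obtain ⟨x, hx⟩ := IsAlgClosed.exists_root (ladD W k) hdeg
  obtain ⟨y, hy⟩ := exists_nonsingular_of_isAlgClosed W hΔ x
  exact ⟨Affine.Point.some x y hy, Affine.Point.some_ne_zero hy, (ladLink W k x y hy).2 hx⟩

/-- Over any field in which the odd prime `p` is nonzero, the points killed by `p` form a finite
set with at most `p ^ 2` elements. -/
theorem card_torsion_le_of_cast_ne_zero [DecidableEq K] (W : Affine K) {p : ℕ} (hp : p.Prime)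
    (hp2 : p ≠ 2) (hpK : (p : K) ≠ 0) :
    Set.Finite {P : W.Point | p • P = 0} ∧ Set.ncard {P : W.Point | p • P = 0} ≤ p ^ 2 := by
  obtain ⟨k, hk, rfl⟩ := exists_eq_two_mul_add_one hp hp2
  obtain ⟨hfin, hcard⟩ := finite_and_ncard_le_of_poly W (ladD W k)
    (ladD_ne_zero_of_cast_ne_zero W k hpK)
    (2 * k ^ 2 + 2 * k) (ladD_natDegree_le W k) {P : W.Point | (2 * k + 1) • P = 0}
    (fun x y h hP => (ladLink W k x y h).1 hP)
  refine ⟨hfin, hcard.trans (le_of_eq ?_)⟩
  ring

/-- The `p`-torsion submodule is finite with at most `p ^ 2` elements, over any field in which the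
odd prime `p` is nonzero. -/
theorem natCard_torsionBy_le_of_cast_ne_zero [DecidableEq K] (W : Affine K) {p : ℕ}
    (hp : p.Prime) (hp2 : p ≠ 2) (hpK : (p : K) ≠ 0) :
    Finite (Submodule.torsionBy ℤ W.Point p) ∧
      Nat.card (Submodule.torsionBy ℤ W.Point p) ≤ p ^ 2 := by
  obtain ⟨hfin, hcard⟩ := card_torsion_le_of_cast_ne_zero W hp hp2 hpK
  rw [← torsionBy_eq_setOf] at hfin hcard
  exact ⟨hfin, by rw [← Nat.card_coe_set_eq] at hcard; exact hcard⟩

/-- The `p`-torsion submodule is nontrivial over an algebraically closed field in which the odd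
prime `p` is nonzero. -/
theorem nontrivial_torsionBy_of_cast_ne_zero [DecidableEq K] [IsAlgClosed K] (W : Affine K)
    (hΔ : W.Δ ≠ 0) {p : ℕ} (hp : p.Prime) (hp2 : p ≠ 2) (hpK : (p : K) ≠ 0) :
    Nontrivial (Submodule.torsionBy ℤ W.Point p) := by
  obtain ⟨P, hP0, hpP⟩ := exists_torsion_point_of_cast_ne_zero W hΔ hp hp2 hpK
  have hP : P ∈ Submodule.torsionBy ℤ W.Point p := by
    rw [Submodule.mem_torsionBy_iff, Nat.cast_smul_eq_nsmul ℤ p P]; exact hpP
  exact ⟨⟨⟨P, hP⟩, 0, fun h => hP0 (congrArg Subtype.val h)⟩⟩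

end Fermat.Agent.S52.H55
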